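import Mathlib
import Fermat.Agent.LT.T7.Spec

/-!
# Row LT, tower T7: places of `K'` over places of `K` (helper664, OFF-MAIN), core of the leaf
`B981.SS503.PlacesC503` (registry row 2873, spare)

Mathlib + the definitions `PlaceOver`, `HasResDeg`, `IsCycExt` of `T7/Spec.lean` only.
-/

set_option autoImplicit false
set_option linter.deprecated false
set_option linter.style.haveILetI false
set_option linter.unusedSectionVars false

open IsDedekindDomain NumberField

noncomputable section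

namespace Fermat.Agent.LT.T7.H664

open Fermat.Agent.LT.T7

variable {K K' : Type} [Field K] [NumberField K] [Field K'] [NumberField K'] [Algebra K K']

/-- `w` lies over `v` iff `v = w ∩ 𝓞_K`. -/
theorem placeOver_iff664 (v : HeightOneSpectrum (𝓞 K)) (w : HeightOneSpectrum (𝓞 K')) :
    PlaceOver K K' v w ↔ v.asIdeal = Ideal.under (𝓞 K) w.asIdeal := by
  constructor
  · intro h
    ext x
    rw [Ideal.under_def, Ideal.mem_comap]
    exact h x (algebraMap (𝓞 K) (𝓞 K') x) rfl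
  · intro h x y hxy
    have hy : y = algebraMap (𝓞 K) (𝓞 K') x := RingOfIntegers.ext hxy
    subst hy
    rw [h, Ideal.under_def, Ideal.mem_comap]

/-- The place of `K` under `w`. -/
def under664 (w : HeightOneSpectrum (𝓞 K')) : HeightOneSpectrum (𝓞 K) where
  asIdeal := Ideal.under (𝓞 K) w.asIdeal
  isPrime := by
    haveI := w.isPrime
    exact Ideal.IsPrime.under (𝓞 K) w.asIdeal
  ne_bot := Ideal.under_ne_bot (𝓞 K) w.ne_bot

theorem placeOver_under664 (w : HeightOneSpectrum (𝓞 K')) :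
    PlaceOver K K' (under664 (K := K) w) w :=
  (placeOver_iff664 _ w).2 rfl

theorem eq_under664 {v : HeightOneSpectrum (𝓞 K)} {w : HeightOneSpectrum (𝓞 K')}
    (h : PlaceOver K K' v w) : v = under664 (K := K) w :=
  HeightOneSpectrum.ext ((placeOver_iff664 v w).1 h)

/-- `N w = (N v)^f`, `f` the inertia degree. -/
theorem absNorm_eq664 (v : HeightOneSpectrum (𝓞 K)) (w : HeightOneSpectrum (𝓞 K'))
    (h : PlaceOver K K' v w) :
    Ideal.absNorm w.asIdeal
      = Ideal.absNorm v.asIdeal ^ (v.asIdeal.inertiaDeg' w.asIdeal) := by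
  haveI : w.asIdeal.LiesOver v.asIdeal := ⟨(placeOver_iff664 v w).1 h⟩
  haveI : v.asIdeal.IsMaximal := v.isMaximal
  haveI : w.asIdeal.IsMaximal := w.isMaximal
  haveI : Finite (𝓞 K' ⧸ w.asIdeal) := Ideal.finiteQuotientOfFreeOfNeBot _ w.ne_bot
  rw [Ideal.inertiaDeg'_algebraMap, Ideal.absNorm_apply, Ideal.absNorm_apply,
    Submodule.cardQuot_apply, Submodule.cardQuot_apply]
  letI : Field (𝓞 K ⧸ v.asIdeal) := Ideal.Quotient.field v.asIdeal
  exact Module.natCard_eq_pow_finrank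

theorem hasResDeg664 (v : HeightOneSpectrum (𝓞 K)) (w : HeightOneSpectrum (𝓞 K'))
    (h : PlaceOver K K' v w) :
    HasResDeg K K' v w (v.asIdeal.inertiaDeg' w.asIdeal) :=
  ⟨h, absNorm_eq664 v w h⟩

/-- The ideal of a place over `v` belongs to `primesOverFinset`. -/
theorem mem_primesOverFinset664 {v : HeightOneSpectrum (𝓞 K)} {w : HeightOneSpectrum (𝓞 K')}
    (h : PlaceOver K K' v w) : w.asIdeal ∈ IsDedekindDomain.primesOverFinset v.asIdeal (𝓞 K') := by
  haveI : v.asIdeal.IsMaximal := v.isMaximal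
  rw [IsDedekindDomain.mem_primesOverFinset_iff v.ne_bot (𝓞 K')]
  exact ⟨w.isPrime, ⟨(placeOver_iff664 v w).1 h⟩⟩

/-- A member of `primesOverFinset` is the ideal of a place over `v`. -/
theorem exists_place_of_mem664 {v : HeightOneSpectrum (𝓞 K)} {Q : Ideal (𝓞 K')}
    (hQ : Q ∈ IsDedekindDomain.primesOverFinset v.asIdeal (𝓞 K')) :
    ∃ w : HeightOneSpectrum (𝓞 K'), w.asIdeal = Q ∧ PlaceOver K K' v w := by
  haveI : v.asIdeal.IsMaximal := v.isMaximal
  rw [IsDedekindDomain.mem_primesOverFinset_iff v.ne_bot (𝓞 K')] at hQ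
  obtain ⟨hp, ho⟩ := hQ
  haveI := ho
  have hne : Q ≠ ⊥ := Ideal.ne_bot_of_liesOver_of_ne_bot v.ne_bot Q
  exact ⟨⟨Q, hp, hne⟩, rfl, (placeOver_iff664 v ⟨Q, hp, hne⟩).2 ho.over⟩

/-- The places over `v` are finite in number. -/
theorem finite_over664 (v : HeightOneSpectrum (𝓞 K)) :
    {w : HeightOneSpectrum (𝓞 K') | PlaceOver K K' v w}.Finite := by
  refine Set.Finite.of_injOn (f := fun w : HeightOneSpectrum (𝓞 K') => w.asIdeal)
    (t := (↑(IsDedekindDomain.primesOverFinset v.asIdeal (𝓞 K')) : Set (Ideal (𝓞 K')))) ?_ ?_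
    (Finset.finite_toSet _)
  · intro w hw
    exact Finset.mem_coe.2 (mem_primesOverFinset664 hw)
  · intro a _ b _ hab
    exact HeightOneSpectrum.ext hab

/-- `∑ e f = [K' : K]`. -/
theorem sum_ef664 (v : HeightOneSpectrum (𝓞 K)) :
    ∑ Q ∈ IsDedekindDomain.primesOverFinset v.asIdeal (𝓞 K'),
        v.asIdeal.ramificationIdx' Q * v.asIdeal.inertiaDeg' Q = Module.finrank K K' := by
  haveI : v.asIdeal.IsMaximal := v.isMaximal
  exact Ideal.sum_ramification_inertia (𝓞 K') K K' v.ne_bot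

/-- Every term of the sum is positive. -/
theorem one_le_ef664 (v : HeightOneSpectrum (𝓞 K)) {Q : Ideal (𝓞 K')}
    (hQ : Q ∈ IsDedekindDomain.primesOverFinset v.asIdeal (𝓞 K')) :
    1 ≤ v.asIdeal.ramificationIdx' Q * v.asIdeal.inertiaDeg' Q := by
  haveI : v.asIdeal.IsMaximal := v.isMaximal
  rw [IsDedekindDomain.mem_primesOverFinset_iff v.ne_bot (𝓞 K')] at hQ
  obtain ⟨hp, ho⟩ := hQ
  haveI := ho
  have hmap : Ideal.map (algebraMap (𝓞 K) (𝓞 K')) v.asIdeal ≠ ⊥ := by
    intro h0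
    rw [Ideal.map_eq_bot_iff_of_injective (FaithfulSMul.algebraMap_injective (𝓞 K) (𝓞 K'))] at h0
    exact v.ne_bot h0
  have hle : Ideal.map (algebraMap (𝓞 K) (𝓞 K')) v.asIdeal ≤ Q :=
    Ideal.map_le_iff_le_comap.2 (le_of_eq ho.over)
  have he : v.asIdeal.ramificationIdx' Q ≠ 0 :=
    Ideal.IsDedekindDomain.ramificationIdx'_ne_zero hmap hp hle
  have hf : 0 < v.asIdeal.inertiaDeg' Q := Ideal.inertiaDeg'_pos v.asIdeal Q
  exact Nat.one_le_iff_ne_zero.2 (Nat.mul_ne_zero he hf.ne')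

/-- `e = 1` if some element of `v` is not in `w²`. -/
theorem ramIdx_eq_one664 {v : HeightOneSpectrum (𝓞 K)} {w : HeightOneSpectrum (𝓞 K')}
    (h : PlaceOver K K' v w)
    (hx : ∃ x : 𝓞 K, x ∈ v.asIdeal ∧ algebraMap (𝓞 K) (𝓞 K') x ∉ w.asIdeal ^ 2) :
    v.asIdeal.ramificationIdx' w.asIdeal = 1 := by
  obtain ⟨x, hxv, hxw⟩ := hx
  refine Ideal.ramificationIdx'_spec ?_ ?_
  · rw [pow_one]
    exact Ideal.map_le_iff_le_comap.2 (le_of_eq ((placeOver_iff664 v w).1 h))
  · intro hle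
    exact hxw (hle (Ideal.mem_map_of_mem _ hxv))

/-- **ONE place over `v`, unramified: `f = [K' : K]`.** -/
theorem inertia_of_unique664 {v : HeightOneSpectrum (𝓞 K)} {w : HeightOneSpectrum (𝓞 K')}
    (h : PlaceOver K K' v w)
    (hx : ∃ x : 𝓞 K, x ∈ v.asIdeal ∧ algebraMap (𝓞 K) (𝓞 K') x ∉ w.asIdeal ^ 2)
    (huniq : ∀ w' : HeightOneSpectrum (𝓞 K'), PlaceOver K K' v w' → w' = w) :
    v.asIdeal.inertiaDeg' w.asIdeal = Module.finrank K K' := by
  have hF : IsDedekindDomain.primesOverFinset v.asIdeal (𝓞 K') = {w.asIdeal} := by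
    ext Q
    rw [Finset.mem_singleton]
    constructor
    · intro hQ
      obtain ⟨w', rfl, hw'⟩ := exists_place_of_mem664 hQ
      rw [huniq w' hw']
    · rintro rfl
      exact mem_primesOverFinset664 h
  have hs := sum_ef664 (K' := K') v
  rw [hF, Finset.sum_singleton, ramIdx_eq_one664 h hx, one_mul] at hs
  exact hs

/-- **`ℓ = [K' : K]` distinct places over `v`: `f = 1` and `w` is one of them.** -/
theorem inertia_of_split664 {v : HeightOneSpectrum (𝓞 K)} {w : HeightOneSpectrum (𝓞 K')}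
    (h : PlaceOver K K' v w) (u : ℕ → HeightOneSpectrum (𝓞 K'))
    (hu : ∀ j : ℕ, PlaceOver K K' v (u j))
    (hinj : ∀ j j' : ℕ, j < Module.finrank K K' → j' < Module.finrank K K' → u j = u j' →
      j = j') :
    v.asIdeal.inertiaDeg' w.asIdeal = 1 ∧ ∃ j : ℕ, j < Module.finrank K K' ∧ u j = w := by
  classical
  set F := IsDedekindDomain.primesOverFinset v.asIdeal (𝓞 K') with hF
  set T : Finset (Ideal (𝓞 K')) :=
    (Finset.range (Module.finrank K K')).image (fun j => (u j).asIdeal) with hT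
  have hTF : T ⊆ F := by
    intro Q hQ
    obtain ⟨j, -, rfl⟩ := Finset.mem_image.1 hQ
    exact mem_primesOverFinset664 (hu j)
  have hcardT : T.card = Module.finrank K K' := by
    rw [hT, Finset.card_image_of_injOn, Finset.card_range]
    intro a ha b hb hab
    exact hinj a b (Finset.mem_range.1 (Finset.mem_coe.1 ha))
      (Finset.mem_range.1 (Finset.mem_coe.1 hb)) (HeightOneSpectrum.ext hab)
  have hs := sum_ef664 (K' := K') v
  have hge : F.card ≤ ∑ Q ∈ F, v.asIdeal.ramificationIdx' Q * v.asIdeal.inertiaDeg' Q := by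
    calc F.card = ∑ _Q ∈ F, 1 := by simp
      _ ≤ _ := Finset.sum_le_sum (fun Q hQ => one_le_ef664 v hQ)
  have hcardF : F.card ≤ T.card := by rw [hcardT, ← hs]; exact hge
  have hTeq : T = F := Finset.eq_of_subset_of_card_le hTF hcardF
  have hone : ∀ Q ∈ F, (1 : ℕ) = v.asIdeal.ramificationIdx' Q * v.asIdeal.inertiaDeg' Q := by
    refine (Finset.sum_eq_sum_iff_of_le (fun Q hQ => one_le_ef664 v hQ)).1 ?_
    have hcF : F.card = Module.finrank K K' := by rw [← hTeq, hcardT]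
    rw [Finset.sum_const, smul_eq_mul, mul_one, hcF]
    exact hs.symm
  have hwF : w.asIdeal ∈ F := mem_primesOverFinset664 h
  refine ⟨Nat.eq_one_of_mul_eq_one_left (hone _ hwF).symm, ?_⟩
  rw [← hTeq] at hwF
  obtain ⟨j, hj, hjw⟩ := Finset.mem_image.1 hwF
  exact ⟨j, Finset.mem_range.1 hj, HeightOneSpectrum.ext hjw⟩

/-- **The statement of the leaf, in core form** (degree `ℓ = [K' : K]`; no Galois hypothesis is
used). -/
theorem places_core664 (ℓ : ℕ) (hℓ : Module.finrank K K' = ℓ) (w : HeightOneSpectrum (𝓞 K')) :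
    ∃ (v : HeightOneSpectrum (𝓞 K)) (f : ℕ) (P : Finset (HeightOneSpectrum (𝓞 K'))),
      HasResDeg K K' v w f ∧
      (∀ v' : HeightOneSpectrum (𝓞 K), PlaceOver K K' v' w → v' = v) ∧
      (∀ w' : HeightOneSpectrum (𝓞 K'), w' ∈ P ↔ PlaceOver K K' v w') ∧
      ((∃ x : 𝓞 K, x ∈ v.asIdeal ∧ algebraMap (𝓞 K) (𝓞 K') x ∉ w.asIdeal ^ 2) →
        ((∀ w' : HeightOneSpectrum (𝓞 K'), PlaceOver K K' v w' → w' = w) → f = ℓ) ∧
        ∀ u : ℕ → HeightOneSpectrum (𝓞 K'), (∀ j : ℕ, PlaceOver K K' v (u j)) →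
          (∀ j j' : ℕ, j < ℓ → j' < ℓ → u j = u j' → j = j') →
          f = 1 ∧ ∃ j : ℕ, j < ℓ ∧ u j = w) := by
  subst hℓ
  have hvw := placeOver_under664 (K := K) w
  refine ⟨under664 (K := K) w, _, (finite_over664 (K' := K') (under664 (K := K) w)).toFinset,
    hasResDeg664 _ w hvw, fun v' hv' => eq_under664 hv', fun w' => ?_, fun hx => ⟨?_, ?_⟩⟩
  · rw [Set.Finite.mem_toFinset, Set.mem_setOf_eq]
  · intro huniq
    exact inertia_of_unique664 hvw hx huniq
  · intro u hu hinj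
    exact inertia_of_split664 hvw u hu hinj

end Fermat.Agent.LT.T7.H664

end
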